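import Fermat.Agent.S28.Analytic.Shape
import Fermat.Agent.S23.Sym
import Fermat.Agent.S23.Nice

/-!
# S28 skeleton of the modular half: `exists_UData` from named nodes.
Each `sorry` is ONE node = ONE file `Fermat/Agent/S28/Analytic/<Name>.lean`.
-/

set_option autoImplicit false

noncomputable section

open UpperHalfPlane ModularForm Matrix.SpecialLinearGroup Filter Topology SlashInvariantForm
open ModularCurve Polynomial Fermat.Agent.S23.Sym
open scoped MatrixGroups ModularForm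

namespace Fermat.Agent.S28

local notation "Δ" => ModularForm.discriminant

/-! ## A4 `EtaQuot*.lean` (helper285, with A1-A3 of helper208) -/

theorem exists_etaData (N : ℕ) [NeZero N] (ℓ : ℕ) [Fact ℓ.Prime] (hℓN : ¬ ℓ ∣ N) :
    Nonempty (EtaData N ℓ) := by
  sorry

/-! ## A0 `Dict.lean` (helper268) -/

theorem qExpansion_E4 :
    qExpansion 1 E₄ = eisenstein4.map (Int.castRingHom ℂ) := by
  sorry

theorem qExpansion_discriminant :
    qExpansion 1 Δ = ((PowerSeries.X : PowerSeries ℤ) * dedekindEtaUnit).map (Int.castRingHom ℂ) := by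
  sorry

/-! ## A6 `LevelOnePoly.lean` (helper88) -/

theorem exists_levelOne_poly (m : ℕ) (f : ModularForm 𝒮ℒ (12 * (m : ℤ))) :
    ∃ P : ℂ[X], P.natDegree ≤ m ∧ (∀ z : ℍ, f z = Δ z ^ m * P.eval (E₄ z ^ 3 / Δ z)) ∧
      P.coeff m = (qExpansion 1 f).coeff 0 := by
  sorry

/-! ## A11 `NoZeros.lean` (helper28) -/

theorem eq_const_mul_discriminant_pow_of_ne_zero (m : ℕ) (f : ModularForm 𝒮ℒ (12 * (m : ℤ)))
    (hf : ∀ z : ℍ, f z ≠ 0) : ∃ c : ℂ, c ≠ 0 ∧ ∀ z : ℍ, f z = c * Δ z ^ m := by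
  sorry

/-! ## A10a `ChiC.lean` : the polynomial over `ℂ` (helper28) -/

theorem exists_chiC (N : ℕ) [NeZero N] (ℓ : ℕ) [Fact ℓ.Prime] (D : EtaData N ℓ) :
    ∃ χ : ℂ[X][X], Shape χ (Nat.card (Q0 N)) D.w ∧
      LUnit ℓ ((χ.coeff 1).coeff ((Nat.card (Q0 N) - 1) * D.w)) ∧
      LUnit ℓ ((χ.coeff 0).coeff 0) ∧
      χ.eval₂ (evalL ℂ (jqModC ℂ)) (uL D ℂ) = 0 ∧
      D.r = Nat.card (Q0 N) * D.w := by
  sorry

/-! ## A8 `Rational.lean` (helper268): descent of an irreducible equation from `ℂ` to `ℚ` -/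

theorem rational_descent (χ : ℂ[X][X]) (hmonic : χ.Monic) (hirr : Irreducible χ)
    (u : LaurentSeries ℚ)
    (h : χ.eval₂ (evalL ℂ (jqModC ℂ)) (coeffMap (algebraMap ℚ ℂ) u) = 0) :
    ∃ χ' : ℚ[X][X], χ'.map (Polynomial.mapRingHom (algebraMap ℚ ℂ)) = χ ∧
      χ'.eval₂ (evalL ℚ jq) u = 0 := by
  sorry

/-! ## `IntShape.lean` (helper268) -/

theorem intShape (ℓ : ℕ) [Fact ℓ.Prime] (χ : ℚ[X][X]) (n w : ℕ) (hn : 1 ≤ n) (hw : 1 ≤ w)
    (hχ : Shape χ n w) (hconst : (χ.coeff 0).coeff 0 ∈ GaloisRep.ratLocalizedAt ℓ)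
    (u : LaurentSeries ℚ) (hu : IsInt ℓ u)
    (hord : ∀ k : ℤ, k < (((n - 1) * w : ℕ) : ℤ) → u.coeff k = 0)
    (hlead : u.coeff (((n - 1) * w : ℕ) : ℤ) = 1)
    (h : χ.eval₂ (evalL ℚ jq) u = 0) :
    ∃ χ' : (Zl ℓ)[X][X],
      χ'.map (Polynomial.mapRingHom (GaloisRep.ratLocalizedAt ℓ).subtype) = χ := by
  sorry

/-! ## A9 `Generation.lean` (helper268 / helper275) -/

theorem generation (N : ℕ) [NeZero N] (ℓ : ℕ) [Fact ℓ.Prime] (D : EtaData N ℓ)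
    (d : ℕ) [NeZero d] (hd : d ∣ N) :
    qExpand ℚ d jq ∈ IntermediateField.adjoin ℚ {jq, uL D ℚ} := by
  sorry

/-! ## A10b `Assembly.lean` (helper28) -/

theorem exists_UData' (N : ℕ) [NeZero N] (ℓ : ℕ) [Fact ℓ.Prime] (hℓN : ¬ ℓ ∣ N) :
    Nonempty (UData N ℓ) := by
  sorry

end Fermat.Agent.S28

end
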