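import Fermat.Agent.S28.Defs
import Fermat.Agent.S28.SchemeReduction
import Fermat.Statements.S28

/-!
# S28 skeleton (plan (U)).  Each `sorry` below is ONE task = ONE file `Fermat/Agent/S28/<Name>.lean`.
-/

set_option autoImplicit false

noncomputable section

open ModularCurve ModularCurve.IgusaScheme Polynomial
open scoped TensorProduct

namespace Fermat.Agent.S28

/-! ## T1 `TensorDomain.lean` -/

theorem isDomain_tensor_of_QEP (N : ℕ) [NeZero N] (ℓ : ℕ) [Fact ℓ.Prime]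
    (A : Subalgebra (Zl ℓ) ↥(modularFunctionFieldFull N)) (hA : QEP N ℓ A)
    (K : Type) [Field K] [CharP K ℓ] [Algebra (Zl ℓ) K] :
    IsDomain (↥A ⊗[Zl ℓ] K) := by
  sorry

/-! ## T2 `Irr.lean` -/

theorem irreducible_of_weighted {k : Type*} [Field k] (χ : k[X][X]) (n w : ℕ) (hn : 1 ≤ n)
    (hw : 1 ≤ w) (hmonic : χ.Monic) (hdeg : χ.natDegree = n)
    (hle : ∀ i ≤ n, (χ.coeff (n - i)).natDegree ≤ i * w)
    (hlead : (χ.coeff 1).coeff ((n - 1) * w) ≠ 0)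
    (hconst : IsUnit (χ.coeff 0)) : Irreducible χ := by
  sorry

/-! ## T3 `Euler.lean` (abstract commutative algebra) -/

theorem euler_qep {A K L : Type*} [CommRing A] [IsDomain A] [IsIntegrallyClosed A]
    [IsNoetherianRing A] [Field K] [Algebra A K] [IsFractionRing A K] [Field L] [Algebra K L]
    [Algebra A L] [IsScalarTower A K L] [FiniteDimensional K L] [Algebra.IsSeparable K L]
    (u : L) (hu : IsIntegral A u) (htop : Algebra.adjoin K {u} = ⊤)
    (T : Subring L) (hAT : ∀ a : A, algebraMap A L a ∈ T) (huT : u ∈ T)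
    (hs : (aeval u (derivative (minpoly K u)))⁻¹ ∈ T)
    (l : A) (hl : l ≠ 0)
    (hC : ∀ c ∈ Algebra.adjoin A {u}, ∀ t ∈ T, c = algebraMap A L l * t →
      t ∈ Algebra.adjoin A {u}) :
    (∀ x : L, IsIntegral A x → x ∈ T) ∧
    (∀ x : L, IsIntegral A x → ∀ t ∈ T, x = algebraMap A L l * t → IsIntegral A t) := by
  sorry

/-! ## T4 `QEPFin.lean` : the `q`-expansion principle for the finite chart from `UData` -/

theorem qep_fin (N : ℕ) [NeZero N] (ℓ : ℕ) [Fact ℓ.Prime] (D : UData N ℓ) :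
    QEP N ℓ (chartAlgFin N ℓ) := by
  sorry

/-! ## T5 `QEPMid.lean` -/

theorem qep_mid (N : ℕ) [NeZero N] (ℓ : ℕ) [Fact ℓ.Prime] (h : QEP N ℓ (chartAlgFin N ℓ)) :
    QEP N ℓ (chartAlgMid N ℓ) := by
  sorry

/-! ## T6 `QEPInf.lean` -/

theorem qep_inf (N : ℕ) [NeZero N] (ℓ : ℕ) [Fact ℓ.Prime] (h : QEP N ℓ (chartAlgMid N ℓ)) :
    QEP N ℓ (chartAlgInf N ℓ) := by
  sorry

/-! ## T7 the modular half -/

theorem exists_UData (N : ℕ) [NeZero N] (ℓ : ℕ) [Fact ℓ.Prime] (hℓN : ¬ ℓ ∣ N) :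
    Nonempty (UData N ℓ) := by
  sorry

/-! ## Assembly -/

theorem main (N : ℕ) [NeZero N] (ℓ : ℕ) [Fact ℓ.Prime] (hℓN : ¬ ℓ ∣ N)
    (K : Type) [Field K] [CharP K ℓ] [Algebra ↥(GaloisRep.ratLocalizedAt ℓ) K] :
    AlgebraicGeometry.IsIntegral ↑(CategoryTheory.Limits.pullback (igusaTo N ℓ)
      (AlgebraicGeometry.Spec.map
        (CommRingCat.ofHom (algebraMap ↥(GaloisRep.ratLocalizedAt ℓ) K)))) := by
  obtain ⟨D⟩ := exists_UData N ℓ hℓN
  have h1 := qep_fin N ℓ D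
  have h2 := qep_mid N ℓ h1
  have h3 := qep_inf N ℓ h2
  have d1 := isDomain_tensor_of_QEP N ℓ _ h1 K
  have d2 := isDomain_tensor_of_QEP N ℓ _ h2 K
  have d3 := isDomain_tensor_of_QEP N ℓ _ h3 K
  exact SchemeReduction.isIntegral_pullback_of_isDomain N ℓ K d1 d3 d2.toNontrivial

end Fermat.Agent.S28

end
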