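import Fermat.Agent.S28.DefsT7
import Fermat.Agent.S28.ZlRing
import Fermat.Agent.S28.Irr

/-!
# S28, T7 = `exists_UData` : skeleton.  Each `sorry` is ONE task = ONE file.
-/

set_option autoImplicit false

noncomputable section

open ModularCurve Polynomial UpperHalfPlane ModularForm EisensteinSeries
open scoped MatrixGroups

namespace Fermat.Agent.S28

local notation "Δ" => ModularForm.discriminant
local notation "ofPS" => HahnSeries.ofPowerSeries ℤ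

theorem exists_ChiC (N : ℕ) [NeZero N] (ℓ : ℕ) [Fact ℓ.Prime] (hℓN : ¬ ℓ ∣ N) :
    Nonempty (ChiC N ℓ) := by
  sorry

/-! ## U1 `Analytic/Dict.lean` -/

theorem qExpansion_E4 : qExpansion 1 E₄ = E4S ℂ := by
  sorry

theorem qExpansion_Delta : qExpansion 1 Δ = DeltaS ℂ := by
  sorry

/-! ## U2 `Formal.lean` : formal identities in Laurent series -/

theorem jqModC_mul_DeltaS (S : Type*) [CommRing S] :
    jqModC S * ofPS S (DeltaS S) = ofPS S (E4S S) ^ 3 := by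
  sorry

theorem isUnit_DeltaS (S : Type*) [CommRing S] : IsUnit (ofPS S (DeltaS S)) := by
  sorry

theorem uOf_mul_DeltaS (S : Type*) [CommRing S] (γ : PowerSeries ℤ) (w : ℕ) :
    uOf S γ w * ofPS S (DeltaS S) ^ w = ofPS S (γ.map (Int.castRingHom S)) := by
  sorry

theorem coeffMap_uOf {S S' : Type*} [CommRing S] [CommRing S'] (f : S →+* S')
    (γ : PowerSeries ℤ) (w : ℕ) : coeffMap f (uOf S γ w) = uOf S' γ w := by
  sorry

theorem ordGE_uOf (S : Type*) [CommRing S] (γ : PowerSeries ℤ) (w e : ℕ)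
    (h : ∀ k < e, γ.coeff k = 0) : OrdGE (uOf S γ w) ((e : ℤ) - w) := by
  sorry

theorem coeff_uOf (S : Type*) [CommRing S] (γ : PowerSeries ℤ) (w e : ℕ)
    (h : ∀ k < e, γ.coeff k = 0) : (uOf S γ w).coeff ((e : ℤ) - w) = (γ.coeff e : S) := by
  sorry

theorem isInt_uOf (ℓ : ℕ) (γ : PowerSeries ℤ) (w : ℕ) : IsInt ℓ (uOf ℚ γ w) := by
  sorry

/-- homogeneous power series identity `⇒` Laurent identity `χ(u ; j) = 0`. -/
theorem eval₂_uOf_eq_zero (S : Type*) [CommRing S] (γ : PowerSeries ℤ) (n w : ℕ) (χ : S[X][X])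
    (hdeg : χ.natDegree = n) (hle : ∀ i ≤ n, (χ.coeff (n - i)).natDegree ≤ i * w)
    (h : ∑ i ∈ Finset.range (n + 1),
      (∑ a ∈ Finset.range (i * w + 1),
        PowerSeries.C ((χ.coeff (n - i)).coeff a) * E4S S ^ (3 * a) * DeltaS S ^ (i * w - a)) *
        (γ.map (Int.castRingHom S)) ^ (n - i) = 0) :
    χ.eval₂ (evalJ S) (uOf S γ w) = 0 := by
  sorry

/-! ## U3 `MinPolyDvd.lean` (abstract algebra) -/

theorem dvd_of_irreducible_of_eval₂ {A L : Type*} [CommRing A] [IsDomain A]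
    [IsIntegrallyClosed A] [Field L] (φ : A →+* L) (hφ : Function.Injective φ) (u : L)
    (χ : A[X]) (hirr : Irreducible χ) (hm : χ.Monic) (h : χ.eval₂ φ u = 0)
    (P : A[X]) (hP : P.eval₂ φ u = 0) : χ ∣ P := by
  sorry

/-! ## U4 `LeadConst.lean` : constant term versus top coefficient -/

theorem lead_add_const (S : Type*) [CommRing S] (n w : ℕ) (hn : 1 ≤ n) (hw : 1 ≤ w)
    (χ : S[X][X]) (hmonic : χ.Monic) (hdeg : χ.natDegree = n)
    (hle : ∀ i ≤ n, (χ.coeff (n - i)).natDegree ≤ i * w)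
    (u : LaurentSeries S) (hu : OrdGE u (((n - 1) * w : ℕ) : ℤ))
    (hu1 : u.coeff (((n - 1) * w : ℕ) : ℤ) = 1)
    (h : χ.eval₂ (evalJ S) u = 0) :
    χ.coeff 0 = C (-(χ.coeff 1).coeff ((n - 1) * w)) := by
  sorry

/-! ## U5 `Rational.lean` -/

theorem exists_rat_of_complex (n w : ℕ) (hn : 1 ≤ n) (hw : 1 ≤ w) (χ : ℂ[X][X])
    (hmonic : χ.Monic) (hdeg : χ.natDegree = n)
    (hle : ∀ i ≤ n, (χ.coeff (n - i)).natDegree ≤ i * w)
    (hlead : (χ.coeff 1).coeff ((n - 1) * w) ≠ 0) (hconst : IsUnit (χ.coeff 0))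
    (u : LaurentSeries ℚ) (h : χ.eval₂ (evalJ ℂ) (coeffMap (algebraMap ℚ ℂ) u) = 0) :
    ∃ χ' : ℚ[X][X], χ'.map (Polynomial.mapRingHom (algebraMap ℚ ℂ)) = χ := by
  sorry

/-! ## U6 `IntShape.lean` -/

theorem exists_int_of_rat (ℓ : ℕ) [Fact ℓ.Prime] (n w : ℕ) (hn : 1 ≤ n) (hw : 1 ≤ w)
    (χ : ℚ[X][X]) (hmonic : χ.Monic) (hdeg : χ.natDegree = n)
    (hle : ∀ i ≤ n, (χ.coeff (n - i)).natDegree ≤ i * w)
    (c0 : Zl ℓ) (hc0 : χ.coeff 0 = C (c0 : ℚ))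
    (u : LaurentSeries ℚ) (hint : IsInt ℓ u) (hu : OrdGE u (((n - 1) * w : ℕ) : ℤ))
    (hu1 : u.coeff (((n - 1) * w : ℕ) : ℤ) = 1)
    (h : χ.eval₂ (evalJ ℚ) u = 0) :
    ∃ χ' : (Zl ℓ)[X][X],
      χ'.map (Polynomial.mapRingHom (GaloisRep.ratLocalizedAt ℓ).subtype) = χ := by
  sorry

/-! ## U7 `LUnit.lean` -/

theorem isUnit_of_LUnit (ℓ : ℕ) [Fact ℓ.Prime] (c : ℚ) (h : LUnit ℓ (c : ℂ)) :
    ∃ c' : Zl ℓ, IsUnit c' ∧ (c' : ℚ) = c := by
  sorry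

/-! ## U8 `Analytic/QExpSpace.lean` : closure properties of `IsQExp` and the Sturm bound -/

theorem IsQExp.add {N m : ℕ} [NeZero N] {p p' : PowerSeries ℚ} (h : IsQExp N m p)
    (h' : IsQExp N m p') : IsQExp N m (p + p') := by
  sorry

theorem IsQExp.smul {N m : ℕ} [NeZero N] {p : PowerSeries ℚ} (c : ℚ) (h : IsQExp N m p) :
    IsQExp N m (c • p) := by
  sorry

theorem IsQExp.zero {N m : ℕ} [NeZero N] : IsQExp N m 0 := by
  sorry

theorem IsQExp.one {N : ℕ} [NeZero N] : IsQExp N 0 1 := by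
  sorry

theorem IsQExp.mul {N m m' : ℕ} [NeZero N] {p p' : PowerSeries ℚ} (h : IsQExp N m p)
    (h' : IsQExp N m' p') : IsQExp N (m + m') (p * p') := by
  sorry

theorem IsQExp.pow {N m : ℕ} [NeZero N] {p : PowerSeries ℚ} (h : IsQExp N m p) (k : ℕ) :
    IsQExp N (k * m) (p ^ k) := by
  sorry

theorem IsQExp.eq_zero {N m : ℕ} [NeZero N] {p : PowerSeries ℚ} (h : IsQExp N m p)
    (h0 : ∀ k ≤ m * (CongruenceSubgroup.Gamma0 N).index, p.coeff k = 0) : p = 0 := by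
  sorry

/-- `F(q^d)` for `d ∣ N` and `F = E₄^3` or `Δ`. -/
theorem isQExp_E4_cube (N : ℕ) [NeZero N] (d : ℕ) [NeZero d] (hd : d ∣ N) :
    ∃ p, IsQExp N 1 p ∧ ofPS ℚ p = qExpand ℚ d (ofPS ℚ (E4S ℚ ^ 3)) := by
  sorry

theorem isQExp_Delta (N : ℕ) [NeZero N] (d : ℕ) [NeZero d] (hd : d ∣ N) :
    ∃ p, IsQExp N 1 p ∧ ofPS ℚ p = qExpand ℚ d (ofPS ℚ (DeltaS ℚ)) := by
  sorry

/-! ## U9 `Dependence.lean` : dimension count -/

theorem exists_dependence (N : ℕ) [NeZero N] (c : ℕ)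
    (f : Fin ((CongruenceSubgroup.Gamma0 N).index + 1) → PowerSeries ℚ)
    (hf : ∀ i, IsQExp N c (f i)) :
    ∃ a : Fin ((CongruenceSubgroup.Gamma0 N).index + 1) → ℚ[X], a ≠ 0 ∧
      ∑ i, evalJ ℚ (a i) * ofPS ℚ (f i) = 0 := by
  sorry

/-! ## U10 `Gen.lean` -/

theorem gen_of_irreducible (N : ℕ) [NeZero N] (w : ℕ) (hw : 1 ≤ w) (γ : PowerSeries ℤ)
    (hγ : IsQExp N w (γ.map (Int.castRingHom ℚ)))
    (χ : ℚ[X][X]) (hirr : Irreducible χ) (hmonic : χ.Monic)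
    (hdeg : χ.natDegree = (CongruenceSubgroup.Gamma0 N).index)
    (h : χ.eval₂ (evalJ ℚ) (uOf ℚ γ w) = 0) (d : ℕ) [NeZero d] (hd : d ∣ N) :
    qExpand ℚ d jq ∈ IntermediateField.adjoin ℚ {jq, uOf ℚ γ w} := by
  sorry

end Fermat.Agent.S28

end
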